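import Fermat.Agent.S51_helper44.Torsion
import Fermat.Agent.S51_helper12.GaloisLine

/-!
S51 part A2 (final shape): for an elliptic curve `E` over `ℚ` (`E.Δ ≠ 0`), the `3`-torsion and
`5`-torsion of `E(Qbar)` (in exactly the shape used by the prelude, via helper12's `Tors`) are
nontrivial, finite and of cardinality `< p ^ 3`.
-/

set_option autoImplicit false

namespace Fermat.Agent.S51_helper44

open WeierstrassCurve WeierstrassCurve.Affine
open Fermat.Agent.S51_helper12 (Qbar Tors)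

variable {E : WeierstrassCurve ℚ}

theorem baseChange_Δ_ne_zero (hΔ : E.Δ ≠ 0) : (E⁄Qbar).Δ ≠ 0 := by
  change (E.map (algebraMap ℚ Qbar)).Δ ≠ 0
  rw [WeierstrassCurve.map_Δ]
  exact fun h => hΔ ((map_eq_zero_iff _ (algebraMap ℚ Qbar).injective).mp h)

theorem coe_tors_eq (p : ℕ) :
    ((Submodule.torsionBy ℤ (E⁄Qbar).Point p : Submodule ℤ (E⁄Qbar).Point) :
      Set (E⁄Qbar).Point) = {P : (E⁄Qbar).Point | p • P = 0} := by
  ext P
  simp only [SetLike.mem_coe, Submodule.mem_torsionBy_iff, Set.mem_ofPred_eq, natCast_zsmul]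

/-- the generic packaging step -/
theorem tors_facts_of {p B : ℕ}
    (hfin : {P : (E⁄Qbar).Point | p • P = 0}.Finite)
    (hcard : {P : (E⁄Qbar).Point | p • P = 0}.ncard ≤ B) (hB : B < p ^ 3)
    (hex : ∃ P : (E⁄Qbar).Point, P ≠ 0 ∧ p • P = 0) :
    Nontrivial (Tors E p) ∧ Finite (Tors E p) ∧ Nat.card (Tors E p) < p ^ 3 := by
  refine ⟨?_, ?_, ?_⟩
  · obtain ⟨P, hP0, hP⟩ := hex
    have hmem : P ∈ Submodule.torsionBy ℤ (E⁄Qbar).Point p := by
      rw [Submodule.mem_torsionBy_iff, natCast_zsmul]; exact hP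
    exact ⟨⟨⟨P, hmem⟩, 0, fun h => hP0 (congrArg Subtype.val h)⟩⟩
  · have : ((Submodule.torsionBy ℤ (E⁄Qbar).Point p : Submodule ℤ (E⁄Qbar).Point) :
        Set (E⁄Qbar).Point).Finite := by rw [coe_tors_eq]; exact hfin
    exact this.to_subtype
  · have h1 : Nat.card (Tors E p) =
        ((Submodule.torsionBy ℤ (E⁄Qbar).Point p : Submodule ℤ (E⁄Qbar).Point) :
          Set (E⁄Qbar).Point).ncard := Nat.card_coe_set_eq _
    rw [h1, coe_tors_eq]
    exact lt_of_le_of_lt hcard hB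

/-- **A2 for `p = 3`.** -/
theorem tors_facts_three (E : WeierstrassCurve ℚ) (hΔ : E.Δ ≠ 0) :
    Nontrivial (Tors E 3) ∧ Finite (Tors E 3) ∧ Nat.card (Tors E 3) < 3 ^ 3 := by
  have h := finite_ncard_three (W := (E⁄Qbar))
  exact tors_facts_of h.1 h.2 (by norm_num) (exists_three_torsion (baseChange_Δ_ne_zero hΔ))

/-- **A2 for `p = 5`.** -/
theorem tors_facts_five (E : WeierstrassCurve ℚ) (hΔ : E.Δ ≠ 0) :
    Nontrivial (Tors E 5) ∧ Finite (Tors E 5) ∧ Nat.card (Tors E 5) < 5 ^ 3 := by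
  have h := finite_ncard_five (W := (E⁄Qbar))
  exact tors_facts_of h.1 h.2 (by norm_num) (exists_five_torsion (baseChange_Δ_ne_zero hΔ))

end Fermat.Agent.S51_helper44
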