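import Fermat.Agent.S51_helper44.DupPoint

/-!
S51 part A1: counting points whose x-coordinate is a root of a given polynomial.
-/

set_option autoImplicit false

namespace Fermat.Agent.S51_helper44

open WeierstrassCurve WeierstrassCurve.Affine Polynomial

variable {F : Type*} [Field F] {W : Affine F}

/-- the coordinates of a point -/
def toPair : W.Point → Option (F × F)
  | .zero => none
  | .some x y _ => some (x, y)

lemma toPair_injective : Function.Injective (toPair (W := W)) := by
  rintro (_ | ⟨x₁, y₁, h₁⟩) (_ | ⟨x₂, y₂, h₂⟩) h <;>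
    simp only [toPair, Option.some.injEq, Prod.mk.injEq, reduceCtorEq] at h
  · rfl
  · obtain ⟨rfl, rfl⟩ := h; rfl

/-- the x-coordinate of a point (junk value `0` at the origin) -/
def xCoord : W.Point → F
  | .zero => 0
  | .some x _ _ => x

@[simp] lemma xCoord_some {x y : F} (h : W.Nonsingular x y) : xCoord (Point.some x y h) = x := rfl

lemma xCoord_neg (P : W.Point) : xCoord (-P) = xCoord P := by
  rcases P with _ | ⟨x, y, h⟩
  · rfl
  · rfl

/-- the quadratic polynomial cutting out the points above a given `x`. -/
noncomputable def fiberPoly (W : Affine F) (x : F) : F[X] :=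
  X ^ 2 + C (W.a₁ * x + W.a₃) * X - C (x ^ 3 + W.a₂ * x ^ 2 + W.a₄ * x + W.a₆)

lemma fiberPoly_monic (x : F) : (fiberPoly W x).Monic := by
  unfold fiberPoly
  monicity!

lemma natDegree_fiberPoly (x : F) : (fiberPoly W x).natDegree = 2 := by
  unfold fiberPoly
  compute_degree!

lemma eval_fiberPoly (x y : F) :
    (fiberPoly W x).eval y = y ^ 2 + W.a₁ * x * y + W.a₃ * y
      - (x ^ 3 + W.a₂ * x ^ 2 + W.a₄ * x + W.a₆) := by
  simp only [fiberPoly, eval_sub, eval_add, eval_pow, eval_X, eval_mul, eval_C]
  ring

lemma eval_fiberPoly_eq_zero_iff (x y : F) : (fiberPoly W x).eval y = 0 ↔ W.Equation x y := by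
  rw [eval_fiberPoly, Affine.equation_iff']

open Classical in
/-- the finite set of pairs `(x, y)` on the curve with `x` a root of `p`. -/
noncomputable def pairsOver (W : Affine F) (p : F[X]) : Finset (F × F) :=
  p.roots.toFinset.biUnion fun x => (fiberPoly W x).roots.toFinset.image fun y => (x, y)

lemma card_pairsOver_le (p : F[X]) : (pairsOver W p).card ≤ 2 * p.natDegree := by
  classical
  unfold pairsOver
  refine Finset.card_biUnion_le.trans ?_
  calc ∑ x ∈ p.roots.toFinset, ((fiberPoly W x).roots.toFinset.image fun y => (x, y)).card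
      ≤ ∑ _x ∈ p.roots.toFinset, 2 := by
        refine Finset.sum_le_sum fun x _ => ?_
        refine Finset.card_image_le.trans ?_
        refine (Multiset.toFinset_card_le _).trans ?_
        exact (card_roots' _).trans (natDegree_fiberPoly x).le
    _ = p.roots.toFinset.card * 2 := by rw [Finset.sum_const, smul_eq_mul]
    _ ≤ 2 * p.natDegree := by
        rw [mul_comm]
        exact Nat.mul_le_mul_left 2 ((Multiset.toFinset_card_le _).trans (card_roots' p))

lemma mem_pairsOver {p : F[X]} (hp : p ≠ 0) {x y : F} (hx : p.eval x = 0) (hxy : W.Equation x y) :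
    (x, y) ∈ pairsOver W p := by
  classical
  unfold pairsOver
  rw [Finset.mem_biUnion]
  refine ⟨x, ?_, ?_⟩
  · rw [Multiset.mem_toFinset, mem_roots hp]; exact hx
  · rw [Finset.mem_image]
    refine ⟨y, ?_, rfl⟩
    rw [Multiset.mem_toFinset, mem_roots (fiberPoly_monic x).ne_zero]
    exact (eval_fiberPoly_eq_zero_iff x y).mpr hxy

/-- A set of points all of whose nonzero elements have x-coordinate a root of `p ≠ 0` is finite,
with at most `2 deg p + 1` elements. -/
theorem finite_ncard_le_of_X_root {p : F[X]} (hp : p ≠ 0) (S : Set W.Point)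
    (hS : ∀ P ∈ S, ∀ (x y : F) (h : W.Nonsingular x y), P = Point.some x y h → p.eval x = 0) :
    S.Finite ∧ S.ncard ≤ 2 * p.natDegree + 1 := by
  classical
  set T : Finset (Option (F × F)) := Finset.insertNone (pairsOver W p) with hT
  have hmaps : ∀ P ∈ S, toPair P ∈ (T : Set (Option (F × F))) := by
    intro P hP
    rcases P with _ | ⟨x, y, h⟩
    · simp [toPair, hT]
    · have := hS _ hP x y h rfl
      simp only [toPair, hT, Finset.mem_coe, Finset.mem_insertNone]
      intro a ha
      rw [Option.mem_def, Option.some.injEq] at ha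
      rw [← ha]
      exact mem_pairsOver hp this h.1
  have hinj : Set.InjOn (toPair (W := W)) S := toPair_injective.injOn
  have hfin : S.Finite := Set.Finite.of_injOn hmaps hinj T.finite_toSet
  refine ⟨hfin, ?_⟩
  calc S.ncard ≤ (T : Set (Option (F × F))).ncard :=
        Set.ncard_le_ncard_of_injOn toPair hmaps hinj T.finite_toSet
    _ = T.card := Set.ncard_coe_finset T
    _ = (pairsOver W p).card + 1 := Finset.card_insertNone _
    _ ≤ 2 * p.natDegree + 1 := Nat.add_le_add_right (card_pairsOver_le p) 1

end Fermat.Agent.S51_helper44
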