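import Mathlib

/-!
S51 part A0: the duplication formula on x-coordinates and the polynomial identities used to
control 3- and 5-torsion.
-/

set_option autoImplicit false

namespace Fermat.Agent.S51_helper44

open WeierstrassCurve

section Poly

variable {R : Type*} [CommRing R]

/-- numerator of the x-coordinate duplication map -/
def dupNum (E : WeierstrassCurve R) (x : R) : R :=
  x ^ 4 - E.b₄ * x ^ 2 - 2 * E.b₆ * x - E.b₈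

/-- denominator of the x-coordinate duplication map -/
def dupDen (E : WeierstrassCurve R) (x : R) : R :=
  4 * x ^ 3 + E.b₂ * x ^ 2 + 2 * E.b₄ * x + E.b₆

/-- the 3-division polynomial -/
def psi3 (E : WeierstrassCurve R) (x : R) : R :=
  3 * x ^ 4 + E.b₂ * x ^ 3 + 3 * E.b₄ * x ^ 2 + 3 * E.b₆ * x + E.b₈

/-- the degree 12 cofactor (the 5-division polynomial when `4 b₈ = b₂ b₆ - b₄²`) -/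
def quinG (E : WeierstrassCurve R) (x : R) : R :=
  5 * x ^ 12 + (5 * E.b₂) * x ^ 11 + (E.b₂ ^ 2 + 31 * E.b₄) * x ^ 10
  + (10 * E.b₂ * E.b₄ + 95 * E.b₆) * x ^ 9
  + (54 * E.b₂ * E.b₆ - 9 * E.b₄ ^ 2 + 69 * E.b₈) * x ^ 8
  + (11 * E.b₂ ^ 2 * E.b₆ - 11 * E.b₂ * E.b₄ ^ 2 + 46 * E.b₂ * E.b₈ + 30 * E.b₄ * E.b₆) * x ^ 7
  + (E.b₂ ^ 3 * E.b₆ - E.b₂ ^ 2 * E.b₄ ^ 2 + 11 * E.b₂ ^ 2 * E.b₈ + 8 * E.b₂ * E.b₄ * E.b₆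
      - 23 * E.b₄ ^ 3 + 58 * E.b₄ * E.b₈ - 15 * E.b₆ ^ 2) * x ^ 6
  + (E.b₂ ^ 3 * E.b₈ + 3 * E.b₂ ^ 2 * E.b₄ * E.b₆ - 4 * E.b₂ * E.b₄ ^ 3 + 30 * E.b₂ * E.b₄ * E.b₈
      - 6 * E.b₂ * E.b₆ ^ 2 - 45 * E.b₄ ^ 2 * E.b₆ - 6 * E.b₆ * E.b₈) * x ^ 5
  + (5 * E.b₂ ^ 2 * E.b₄ * E.b₈ + E.b₂ ^ 2 * E.b₆ ^ 2 - 2 * E.b₂ * E.b₄ ^ 2 * E.b₆
      + 2 * E.b₂ * E.b₆ * E.b₈ - 4 * E.b₄ ^ 4 + 13 * E.b₄ ^ 2 * E.b₈ - 60 * E.b₄ * E.b₆ ^ 2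
      - 9 * E.b₈ ^ 2) * x ^ 4
  + (2 * E.b₂ ^ 2 * E.b₆ * E.b₈ + 8 * E.b₂ * E.b₄ ^ 2 * E.b₈ - 2 * E.b₂ * E.b₄ * E.b₆ ^ 2
      - 3 * E.b₂ * E.b₈ ^ 2 - 8 * E.b₄ ^ 3 * E.b₆ - 22 * E.b₄ * E.b₆ * E.b₈ - 25 * E.b₆ ^ 3) * x ^ 3
  + (6 * E.b₂ * E.b₄ * E.b₆ * E.b₈ - E.b₂ * E.b₆ ^ 3 + 4 * E.b₄ ^ 3 * E.b₈ - 9 * E.b₄ ^ 2 * E.b₆ ^ 2
      - 9 * E.b₄ * E.b₈ ^ 2 - 21 * E.b₆ ^ 2 * E.b₈) * x ^ 2
  + (E.b₂ * E.b₆ ^ 2 * E.b₈ + 4 * E.b₄ ^ 2 * E.b₆ * E.b₈ - 5 * E.b₄ * E.b₆ ^ 3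
      - 9 * E.b₆ * E.b₈ ^ 2) * x
  + (E.b₄ * E.b₆ ^ 2 * E.b₈ - E.b₆ ^ 4 - E.b₈ ^ 3)

/-- the cofactor in `quinG + dupDen ^ 4 = psi3 * quinK` -/
def quinK (E : WeierstrassCurve R) (x : R) : R :=
  87 * x ^ 8 + (58 * E.b₂) * x ^ 7 + (13 * E.b₂ ^ 2 + 94 * E.b₄) * x ^ 6
  + (E.b₂ ^ 3 + 42 * E.b₂ * E.b₄ + 30 * E.b₆) * x ^ 5
  + (5 * E.b₂ ^ 2 * E.b₄ + 14 * E.b₂ * E.b₆ + 31 * E.b₄ ^ 2 - 6 * E.b₈) * x ^ 4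
  + (2 * E.b₂ ^ 2 * E.b₆ + 8 * E.b₂ * E.b₄ ^ 2 - 2 * E.b₂ * E.b₈ + 14 * E.b₄ * E.b₆) * x ^ 3
  + (6 * E.b₂ * E.b₄ * E.b₆ + 4 * E.b₄ ^ 3 - 6 * E.b₄ * E.b₈ - 3 * E.b₆ ^ 2) * x ^ 2
  + (E.b₂ * E.b₆ ^ 2 + 4 * E.b₄ ^ 2 * E.b₆ - 6 * E.b₆ * E.b₈) * x
  + (E.b₄ * E.b₆ ^ 2 - E.b₈ ^ 2)

lemma psi3_eq (E : WeierstrassCurve R) (x : R) :
    psi3 E x = x * dupDen E x - dupNum E x := by
  simp only [psi3, dupDen, dupNum]; ring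

/-- Bezout identity: `dupNum` and `dupDen` have no common root when `Δ ≠ 0`. -/
lemma bezout_dup (E : WeierstrassCurve R) (x : R) :
    (48 * x ^ 2 + 8 * E.b₂ * x - E.b₂ ^ 2 + 32 * E.b₄) * dupNum E x
      + (-12 * x ^ 3 + E.b₂ * x ^ 2 + 10 * E.b₄ * x - E.b₂ * E.b₄ + 27 * E.b₆) * dupDen E x
      = -E.Δ := by
  have h := E.b_relation
  simp only [dupNum, dupDen, WeierstrassCurve.Δ]
  linear_combination (-(12 * x ^ 2 + 2 * E.b₂ * x + 8 * E.b₄)) * h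

/-- `dupDen x ^ 4 * (dupNum β - x * dupDen β)` for `β = dupNum x / dupDen x`, denominators cleared. -/
def F16 (E : WeierstrassCurve R) (x : R) : R :=
  dupNum E x ^ 4 - E.b₄ * dupNum E x ^ 2 * dupDen E x ^ 2 - 2 * E.b₆ * dupNum E x * dupDen E x ^ 3
    - E.b₈ * dupDen E x ^ 4
    - x * (4 * dupNum E x ^ 3 * dupDen E x + E.b₂ * dupNum E x ^ 2 * dupDen E x ^ 2
        + 2 * E.b₄ * dupNum E x * dupDen E x ^ 3 + E.b₆ * dupDen E x ^ 4)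

lemma F16_eq (E : WeierstrassCurve R) (x : R) : F16 E x = -(psi3 E x * quinG E x) := by
  simp only [F16, psi3, quinG, dupNum, dupDen]
  ring

lemma quinG_add (E : WeierstrassCurve R) (x : R) :
    quinG E x + dupDen E x ^ 4 = psi3 E x * quinK E x := by
  simp only [psi3, quinG, quinK, dupDen]
  ring

lemma F16_of_eq (E : WeierstrassCurve R) {x β : R} (h : β * dupDen E x = dupNum E x) :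
    dupDen E x ^ 4 * (dupNum E β - x * dupDen E β) = F16 E x := by
  rw [F16, ← h]
  simp only [dupNum, dupDen]
  ring

end Poly

end Fermat.Agent.S51_helper44
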