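import Fermat.Agent.S51_helper44.Dup

/-!
S51 part A0/A1: the duplication formula for points, and the x-coordinates of points of order 3, 5.
-/

set_option autoImplicit false

namespace Fermat.Agent.S51_helper44

open WeierstrassCurve WeierstrassCurve.Affine

variable {F : Type*} [Field F] {W : Affine F}

lemma dupDen_eq_sq {x y : F} (h : W.Equation x y) :
    dupDen W x = (2 * y + W.a₁ * x + W.a₃) ^ 2 := by
  rw [Affine.equation_iff] at h
  simp only [dupDen, b₂, b₄, b₆]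
  linear_combination (-4 : F) * h

lemma sub_negY_eq (x y : F) : y - W.negY x y = 2 * y + W.a₁ * x + W.a₃ := by
  simp only [Affine.negY]; ring

lemma eq_negY_iff_dupDen {x y : F} (h : W.Equation x y) :
    y = W.negY x y ↔ dupDen W x = 0 := by
  rw [dupDen_eq_sq h, sq_eq_zero_iff, ← sub_negY_eq, sub_eq_zero]

private lemma dup_aux₁ (a₁ a₂ x n t : F) (ht : t ≠ 0) :
    ((n / t) ^ 2 + a₁ * (n / t) - a₂ - x - x) * t ^ 2
      = n ^ 2 + a₁ * n * t - (a₂ + 2 * x) * t ^ 2 := by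
  field_simp
  ring

private lemma dup_aux₂ (a₁ a₂ a₃ a₄ a₆ x y : F)
    (h : y ^ 2 + a₁ * x * y + a₃ * y = x ^ 3 + a₂ * x ^ 2 + a₄ * x + a₆) :
    (3 * x ^ 2 + 2 * a₂ * x + a₄ - a₁ * y) ^ 2
      + a₁ * (3 * x ^ 2 + 2 * a₂ * x + a₄ - a₁ * y) * (2 * y + a₁ * x + a₃)
      - (a₂ + 2 * x) * (2 * y + a₁ * x + a₃) ^ 2
    = x ^ 4 - (2 * a₄ + a₁ * a₃) * x ^ 2 - 2 * (a₃ ^ 2 + 4 * a₆) * x
      - (a₁ ^ 2 * a₆ + 4 * a₂ * a₆ - a₁ * a₃ * a₄ + a₂ * a₃ ^ 2 - a₄ ^ 2) := by
  linear_combination (-(a₁ ^ 2 + 4 * a₂ + 8 * x)) * h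

variable [DecidableEq F]

lemma addX_self_mul_dupDen {x y : F} (h : W.Equation x y) (hy : y ≠ W.negY x y) :
    W.addX x x (W.slope x x y y) * dupDen W x = dupNum W x := by
  rw [Affine.slope_of_Y_ne rfl hy, dupDen_eq_sq h, sub_negY_eq]
  have ht : 2 * y + W.a₁ * x + W.a₃ ≠ 0 := by
    rw [← sub_negY_eq]; exact sub_ne_zero.mpr hy
  rw [Affine.equation_iff] at h
  simp only [Affine.addX, dupNum, b₄, b₆, b₈]
  rw [dup_aux₁ _ _ _ _ _ ht]
  exact dup_aux₂ W.a₁ W.a₂ W.a₃ W.a₄ W.a₆ x y h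

/-- doubling an affine point: either it is `0` (iff `dupDen x = 0`) or its x-coordinate is given by
the duplication formula. -/
lemma two_nsmul_some_eq_zero_iff {x y : F} (h : W.Nonsingular x y) :
    (2 : ℕ) • (Point.some x y h) = 0 ↔ dupDen W x = 0 := by
  rw [two_nsmul, ← eq_negY_iff_dupDen h.1]
  constructor
  · intro h0
    by_contra hy
    rw [Point.add_self_of_Y_ne hy] at h0
    exact Point.some_ne_zero _ h0
  · intro hy
    exact Point.add_self_of_Y_eq hy

lemma two_nsmul_some_X {x y : F} (h : W.Nonsingular x y) {x' y' : F} (h' : W.Nonsingular x' y')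
    (hd : (2 : ℕ) • (Point.some x y h) = Point.some x' y' h') :
    dupDen W x ≠ 0 ∧ x' * dupDen W x = dupNum W x := by
  have hne : dupDen W x ≠ 0 := by
    intro h0
    rw [(two_nsmul_some_eq_zero_iff h).mpr h0] at hd
    exact Point.some_ne_zero _ hd.symm
  refine ⟨hne, ?_⟩
  have hy : y ≠ W.negY x y := fun hy => hne ((eq_negY_iff_dupDen h.1).mp hy)
  rw [two_nsmul, Point.add_self_of_Y_ne hy, Point.some.injEq] at hd
  rw [← hd.1]
  exact addX_self_mul_dupDen h.1 hy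

/-- if `dupDen x ≠ 0`, the double of `(x, y)` is an affine point with the expected x-coordinate. -/
lemma exists_two_nsmul_some {x y : F} (h : W.Nonsingular x y) (hne : dupDen W x ≠ 0) :
    ∃ (x' y' : F) (h' : W.Nonsingular x' y'), (2 : ℕ) • (Point.some x y h) = Point.some x' y' h' ∧
      x' * dupDen W x = dupNum W x := by
  have hy : y ≠ W.negY x y := fun hy => hne ((eq_negY_iff_dupDen h.1).mp hy)
  refine ⟨_, _, _, by rw [two_nsmul, Point.add_self_of_Y_ne hy], addX_self_mul_dupDen h.1 hy⟩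

omit [DecidableEq F] in
/-- two affine points with the same x-coordinate are equal or opposite -/
lemma eq_or_eq_neg_of_X_eq {x y y' : F} (h : W.Nonsingular x y) (h' : W.Nonsingular x y') :
    Point.some x y h = Point.some x y' h' ∨ Point.some x y h = -Point.some x y' h' :=
  Point.X_eq_iff.mp rfl

/-- a nonzero point killed by `3` has x-coordinate a root of `psi3`. -/
lemma psi3_eq_zero_of_three_nsmul {x y : F} (h : W.Nonsingular x y)
    (h3 : (3 : ℕ) • (Point.some x y h) = 0) : psi3 W x = 0 := by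
  have h2 : (2 : ℕ) • (Point.some x y h) = -Point.some x y h := by
    rw [eq_neg_iff_add_eq_zero, ← succ_nsmul]; exact h3
  rw [Point.neg_some] at h2
  have := (two_nsmul_some_X h _ h2).2
  rw [psi3_eq, this, sub_self]

/-- the data attached to a nonzero point killed by `5`. -/
lemma five_nsmul_data {x y : F} (h : W.Nonsingular x y)
    (h5 : (5 : ℕ) • (Point.some x y h) = 0) :
    ∃ (x₂ y₂ : F) (h₂ : W.Nonsingular x₂ y₂),
      (2 : ℕ) • Point.some x y h = Point.some x₂ y₂ h₂ ∧ x₂ ≠ x ∧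
      dupDen W x ≠ 0 ∧ dupDen W x₂ ≠ 0 ∧ x₂ * dupDen W x = dupNum W x ∧
      x * dupDen W x₂ = dupNum W x₂ := by
  set P := Point.some x y h with hP
  have hP0 : P ≠ 0 := Point.some_ne_zero _
  have h5' : (2 : ℕ) • ((2 : ℕ) • P) + P = 0 := by
    rw [← mul_nsmul, ← succ_nsmul]; exact h5
  have h2ne : (2 : ℕ) • P ≠ 0 := by
    intro h0
    rw [h0, nsmul_zero, zero_add] at h5'
    exact hP0 h5'
  rcases hQ : (2 : ℕ) • P with _ | ⟨x₂, y₂, h₂⟩
  · exact absurd hQ h2ne
  refine ⟨x₂, y₂, h₂, rfl, ?_⟩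
  obtain ⟨hd1, he1⟩ := two_nsmul_some_X h h₂ hQ
  have h4 : (2 : ℕ) • (Point.some x₂ y₂ h₂) = -P := by
    rw [← hQ, eq_neg_iff_add_eq_zero]; exact h5'
  rw [hP, Point.neg_some] at h4
  obtain ⟨hd2, he2⟩ := two_nsmul_some_X h₂ _ h4
  refine ⟨?_, hd1, hd2, he1, he2⟩
  rintro rfl
  rcases eq_or_eq_neg_of_X_eq h₂ h with h' | h'
  · -- 2P = P
    rw [← hQ, ← hP] at h'
    apply hP0
    have : (2 : ℕ) • P = P + P := two_nsmul P
    rw [this] at h'
    exact add_eq_right.mp h' |> fun t => t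
  · -- 2P = -P so 3P = 0, with 5P = 0 gives P = 0
    rw [← hQ, ← hP] at h'
    apply hP0
    have h3 : (2 : ℕ) • P + P = 0 := by rw [h', neg_add_cancel]
    have : (2 : ℕ) • ((2 : ℕ) • P) + P = -P := by
      have e : (2 : ℕ) • ((2 : ℕ) • P) + P = (2 : ℕ) • ((2 : ℕ) • P + P) - P := by
        rw [nsmul_add, two_nsmul P]; abel
      rw [e, h3, nsmul_zero, zero_sub]
    rw [h5'] at this
    exact neg_eq_zero.mp this.symm

/-- the x-coordinate of a nonzero point killed by `5` is a root of `quinG`. -/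
lemma quinG_eq_zero_of_five_nsmul {x y : F} (h : W.Nonsingular x y)
    (h5 : (5 : ℕ) • (Point.some x y h) = 0) : quinG W x = 0 := by
  obtain ⟨x₂, y₂, h₂, -, hne, hd1, hd2, he1, he2⟩ := five_nsmul_data h h5
  have hF : F16 W x = 0 := by
    rw [← F16_of_eq W he1, ← he2, sub_self, mul_zero]
  rw [F16_eq, neg_eq_zero, mul_eq_zero] at hF
  rcases hF with h3 | hG
  · exfalso
    apply hne
    rw [psi3_eq, sub_eq_zero, ← he1] at h3
    exact (mul_right_cancel₀ hd1 h3).symm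
  · exact hG

end Fermat.Agent.S51_helper44
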