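import Fermat.Agent.S51_helper44.TorsFacts
import Fermat.Agent.S51.TorsEnd
import Fermat.Agent.S51.Glue

/-!
S51: the two Part A interface statements `IfaceThree`, `IfaceFive` of `Glue.lean`, obtained by
feeding `tors_facts_three` / `tors_facts_five` (A2) into helper76's end statements
(`exists_rat_root_psi3_of_torsOK`, `exists_rat_five_data_of_torsOK`).
-/

set_option autoImplicit false

namespace Fermat.Agent.S51_helper44

theorem map_Δ_ne_zero {W : WeierstrassCurve ℤ} (hΔ : W.Δ ≠ 0) :
    (W.map (Int.castRingHom ℚ)).Δ ≠ 0 := by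
  rw [WeierstrassCurve.map_Δ]
  intro h
  apply hΔ
  have h' : ((W.Δ : ℤ) : ℚ) = 0 := h
  exact_mod_cast h'

theorem ifaceThree : Fermat.Agent.S51.IfaceThree := fun W hΔ h =>
  Fermat.Agent.S51.Torsion.exists_rat_root_psi3_of_torsOK W
    (tors_facts_three _ (map_Δ_ne_zero hΔ)) h

theorem ifaceFive : Fermat.Agent.S51.IfaceFive := fun W hΔ h =>
  Fermat.Agent.S51.Torsion.exists_rat_five_data_of_torsOK W
    (tors_facts_five _ (map_Δ_ne_zero hΔ)) h

end Fermat.Agent.S51_helper44
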