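import Fermat.Agent.S51_helper44.Card

/-!
S51 part A1/A2: bounds for the number of points killed by 3 and by 5, and existence of points of
order 3 and 5 over an algebraically closed field of characteristic zero.
-/

set_option autoImplicit false

namespace Fermat.Agent.S51_helper44

open WeierstrassCurve WeierstrassCurve.Affine Polynomial

variable {F : Type*} [Field F] {W : Affine F}

/-- `psi3` as a polynomial -/
noncomputable def psi3Poly (W : Affine F) : F[X] :=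
  C 3 * X ^ 4 + C W.b₂ * X ^ 3 + C (3 * W.b₄) * X ^ 2 + C (3 * W.b₆) * X + C W.b₈

lemma eval_psi3Poly (x : F) : (psi3Poly W).eval x = psi3 W x := by
  simp only [psi3Poly, psi3, eval_add, eval_mul, eval_C, eval_pow, eval_X]

lemma natDegree_psi3Poly [CharZero F] : (psi3Poly W).natDegree = 4 := by
  unfold psi3Poly
  compute_degree!

lemma psi3Poly_ne_zero [CharZero F] : psi3Poly W ≠ 0 := by
  intro h
  have := natDegree_psi3Poly (W := W)
  rw [h, natDegree_zero] at this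
  exact absurd this (by norm_num)

/-- `quinG` as a polynomial -/
noncomputable def quinGPoly (W : Affine F) : F[X] :=
  C 5 * X ^ 12 + C (5 * W.b₂) * X ^ 11 + C (W.b₂ ^ 2 + 31 * W.b₄) * X ^ 10
  + C (10 * W.b₂ * W.b₄ + 95 * W.b₆) * X ^ 9
  + C (54 * W.b₂ * W.b₆ - 9 * W.b₄ ^ 2 + 69 * W.b₈) * X ^ 8
  + C (11 * W.b₂ ^ 2 * W.b₆ - 11 * W.b₂ * W.b₄ ^ 2 + 46 * W.b₂ * W.b₈ + 30 * W.b₄ * W.b₆) * X ^ 7
  + C (W.b₂ ^ 3 * W.b₆ - W.b₂ ^ 2 * W.b₄ ^ 2 + 11 * W.b₂ ^ 2 * W.b₈ + 8 * W.b₂ * W.b₄ * W.b₆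
      - 23 * W.b₄ ^ 3 + 58 * W.b₄ * W.b₈ - 15 * W.b₆ ^ 2) * X ^ 6
  + C (W.b₂ ^ 3 * W.b₈ + 3 * W.b₂ ^ 2 * W.b₄ * W.b₆ - 4 * W.b₂ * W.b₄ ^ 3 + 30 * W.b₂ * W.b₄ * W.b₈
      - 6 * W.b₂ * W.b₆ ^ 2 - 45 * W.b₄ ^ 2 * W.b₆ - 6 * W.b₆ * W.b₈) * X ^ 5
  + C (5 * W.b₂ ^ 2 * W.b₄ * W.b₈ + W.b₂ ^ 2 * W.b₆ ^ 2 - 2 * W.b₂ * W.b₄ ^ 2 * W.b₆
      + 2 * W.b₂ * W.b₆ * W.b₈ - 4 * W.b₄ ^ 4 + 13 * W.b₄ ^ 2 * W.b₈ - 60 * W.b₄ * W.b₆ ^ 2
      - 9 * W.b₈ ^ 2) * X ^ 4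
  + C (2 * W.b₂ ^ 2 * W.b₆ * W.b₈ + 8 * W.b₂ * W.b₄ ^ 2 * W.b₈ - 2 * W.b₂ * W.b₄ * W.b₆ ^ 2
      - 3 * W.b₂ * W.b₈ ^ 2 - 8 * W.b₄ ^ 3 * W.b₆ - 22 * W.b₄ * W.b₆ * W.b₈ - 25 * W.b₆ ^ 3) * X ^ 3
  + C (6 * W.b₂ * W.b₄ * W.b₆ * W.b₈ - W.b₂ * W.b₆ ^ 3 + 4 * W.b₄ ^ 3 * W.b₈ - 9 * W.b₄ ^ 2 * W.b₆ ^ 2
      - 9 * W.b₄ * W.b₈ ^ 2 - 21 * W.b₆ ^ 2 * W.b₈) * X ^ 2
  + C (W.b₂ * W.b₆ ^ 2 * W.b₈ + 4 * W.b₄ ^ 2 * W.b₆ * W.b₈ - 5 * W.b₄ * W.b₆ ^ 3
      - 9 * W.b₆ * W.b₈ ^ 2) * X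
  + C (W.b₄ * W.b₆ ^ 2 * W.b₈ - W.b₆ ^ 4 - W.b₈ ^ 3)

lemma eval_quinGPoly (x : F) : (quinGPoly W).eval x = quinG W x := by
  simp only [quinGPoly, quinG, eval_add, eval_mul, eval_C, eval_pow, eval_X]

lemma natDegree_quinGPoly [CharZero F] : (quinGPoly W).natDegree = 12 := by
  unfold quinGPoly
  compute_degree!

lemma quinGPoly_ne_zero [CharZero F] : quinGPoly W ≠ 0 := by
  intro h
  have := natDegree_quinGPoly (W := W)
  rw [h, natDegree_zero] at this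
  exact absurd this (by norm_num)

section Bounds

variable [DecidableEq F] [CharZero F]

/-- at most `9` points are killed by `3`. -/
theorem finite_ncard_three : {P : W.Point | (3 : ℕ) • P = 0}.Finite ∧
    {P : W.Point | (3 : ℕ) • P = 0}.ncard ≤ 9 := by
  have := finite_ncard_le_of_X_root (W := W) psi3Poly_ne_zero {P : W.Point | (3 : ℕ) • P = 0}
    (by
      rintro P hP x y h rfl
      rw [eval_psi3Poly]
      exact psi3_eq_zero_of_three_nsmul h hP)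
  rwa [natDegree_psi3Poly] at this

/-- at most `25` points are killed by `5`. -/
theorem finite_ncard_five : {P : W.Point | (5 : ℕ) • P = 0}.Finite ∧
    {P : W.Point | (5 : ℕ) • P = 0}.ncard ≤ 25 := by
  have := finite_ncard_le_of_X_root (W := W) quinGPoly_ne_zero {P : W.Point | (5 : ℕ) • P = 0}
    (by
      rintro P hP x y h rfl
      rw [eval_quinGPoly]
      exact quinG_eq_zero_of_five_nsmul h hP)
  rwa [natDegree_quinGPoly] at this

end Bounds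

section Exists

lemma not_dupNum_dupDen (hΔ : W.Δ ≠ 0) (x : F) : ¬ (dupNum W x = 0 ∧ dupDen W x = 0) := by
  rintro ⟨h1, h2⟩
  have := bezout_dup W x
  rw [h1, h2, mul_zero, mul_zero, add_zero] at this
  exact hΔ (neg_eq_zero.mp this.symm)

lemma exists_nonsingular_of_X [IsAlgClosed F] (hΔ : W.Δ ≠ 0) (x : F) :
    ∃ y : F, W.Nonsingular x y := by
  obtain ⟨y, hy⟩ := IsAlgClosed.exists_root (fiberPoly W x) (by
    rw [degree_eq_natDegree (fiberPoly_monic x).ne_zero, natDegree_fiberPoly]; norm_num)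
  exact ⟨y, (equation_iff_nonsingular_of_Δ_ne_zero hΔ).mp
    ((eval_fiberPoly_eq_zero_iff x y).mp hy)⟩

variable [DecidableEq F] [CharZero F] [IsAlgClosed F]

/-- there is a point of order `3`. -/
theorem exists_three_torsion (hΔ : W.Δ ≠ 0) : ∃ P : W.Point, P ≠ 0 ∧ (3 : ℕ) • P = 0 := by
  obtain ⟨α, hα⟩ := IsAlgClosed.exists_root (psi3Poly W) (by
    rw [degree_eq_natDegree psi3Poly_ne_zero, natDegree_psi3Poly]; norm_num)
  rw [IsRoot, eval_psi3Poly] at hα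
  obtain ⟨y, hy⟩ := exists_nonsingular_of_X hΔ α
  have hd : dupDen W α ≠ 0 := by
    intro h0
    refine not_dupNum_dupDen hΔ α ⟨?_, h0⟩
    rw [psi3_eq, h0, mul_zero, zero_sub, neg_eq_zero] at hα
    exact hα
  obtain ⟨x', y', h', h2, hx'⟩ := exists_two_nsmul_some hy hd
  have hxα : x' = α := by
    rw [psi3_eq, sub_eq_zero] at hα
    rw [← hα] at hx'
    exact mul_right_cancel₀ hd hx'
  subst hxα
  refine ⟨Point.some x' y hy, Point.some_ne_zero _, ?_⟩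
  rcases eq_or_eq_neg_of_X_eq h' hy with h | h
  · exfalso
    rw [← h2, two_nsmul] at h
    exact Point.some_ne_zero hy (add_eq_right.mp h)
  · rw [succ_nsmul, h2, h, neg_add_cancel]

/-- there is a point of order `5`. -/
theorem exists_five_torsion (hΔ : W.Δ ≠ 0) : ∃ P : W.Point, P ≠ 0 ∧ (5 : ℕ) • P = 0 := by
  obtain ⟨α, hα⟩ := IsAlgClosed.exists_root (quinGPoly W) (by
    rw [degree_eq_natDegree quinGPoly_ne_zero, natDegree_quinGPoly]; norm_num)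
  rw [IsRoot, eval_quinGPoly] at hα
  -- `psi3 α ≠ 0`
  have hψ : psi3 W α ≠ 0 := by
    intro h0
    have h1 := quinG_add W α
    rw [hα, h0, zero_mul, zero_add] at h1
    have hd0 : dupDen W α = 0 := by simpa using h1
    refine not_dupNum_dupDen hΔ α ⟨?_, hd0⟩
    rw [psi3_eq, hd0, mul_zero, zero_sub, neg_eq_zero] at h0
    exact h0
  have hF : F16 W α = 0 := by rw [F16_eq, hα, mul_zero, neg_zero]
  have hd : dupDen W α ≠ 0 := by
    intro h0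
    refine not_dupNum_dupDen hΔ α ⟨?_, h0⟩
    simp only [F16, h0] at hF
    simpa using hF
  obtain ⟨y, hy⟩ := exists_nonsingular_of_X hΔ α
  obtain ⟨β, y₂, h₂, h2, hβ⟩ := exists_two_nsmul_some hy hd
  have he2 : dupNum W β = α * dupDen W β := by
    have := F16_of_eq W hβ
    rw [hF, mul_eq_zero] at this
    rcases this with h | h
    · exact absurd (pow_eq_zero_iff (by norm_num) |>.mp h) hd
    · exact sub_eq_zero.mp h
  have hd2 : dupDen W β ≠ 0 := by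
    intro h0
    refine not_dupNum_dupDen hΔ β ⟨?_, h0⟩
    rw [he2, h0, mul_zero]
  obtain ⟨x₄, y₄, h₄, h4, hx₄⟩ := exists_two_nsmul_some h₂ hd2
  have hx4α : x₄ = α := by
    rw [he2] at hx₄
    exact mul_right_cancel₀ hd2 hx₄
  subst hx4α
  set P := Point.some x₄ y hy with hP
  have hP0 : P ≠ 0 := Point.some_ne_zero _
  refine ⟨P, hP0, ?_⟩
  have h4' : (2 : ℕ) • ((2 : ℕ) • P) = Point.some x₄ y₄ h₄ := by rw [h2, h4]
  have h5 : (5 : ℕ) • P = (2 : ℕ) • ((2 : ℕ) • P) + P := by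
    rw [← mul_nsmul, ← succ_nsmul]
  rcases eq_or_eq_neg_of_X_eq h₄ hy with h | h
  · -- 4P = P, so 3P = 0 and `psi3 α = 0`: contradiction
    exfalso
    apply hψ
    apply psi3_eq_zero_of_three_nsmul hy
    have e : (2 : ℕ) • ((2 : ℕ) • P) = (3 : ℕ) • P + P := by
      rw [← mul_nsmul, ← succ_nsmul]
    rw [← h4', ← hP, e] at h
    exact add_eq_right.mp h
  · rw [h5, h4', h, ← hP, neg_add_cancel]

end Exists

end Fermat.Agent.S51_helper44
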